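import Mathlib
import Fermat.Agent.QbarInst
import Fermat.Prelude.Def_FLTPrelim_Modularity
import Fermat.Agent.EllRed.Equivariance

/-!
# Newton polygons of division polynomials

If `f ∈ ℤ[X]` has leading coefficient `p` and all its roots have absolute value `> 1` at a place
over `p`, then `|p| |x|^n = 1` for all roots `x`, `n = deg f`.
-/

set_option autoImplicit false

open Polynomial

namespace Fermat.Agent.RT.HTW

section val

variable {L Γ₀ : Type*} [Field L] [LinearOrderedCommGroupWithZero Γ₀] (v : Valuation L Γ₀)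

/-- `∏ (X - a) = c · h` with `h ≡ 1` modulo the maximal ideal, if all `|a| > 1`. -/
theorem exists_prod_form (s : Multiset L) (hs : ∀ a ∈ s, 1 < v a) :
    ∃ (c : L) (h : L[X]), (s.map fun a => X - C a).prod = C c * h ∧ h.coeff 0 = 1 ∧
      ∀ i, i ≠ 0 → v (h.coeff i) < 1 := by
  induction s using Multiset.induction_on with
  | empty =>
    refine ⟨1, 1, by simp, by simp, fun i hi => ?_⟩
    rw [coeff_one, if_neg hi, map_zero]
    exact zero_lt_one
  | cons a s ih =>
    obtain ⟨c, h, h1, h2, h3⟩ := ih fun b hb => hs b (Multiset.mem_cons_of_mem hb)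
    have ha := hs a (Multiset.mem_cons_self a s)
    have ha0 : a ≠ 0 := by
      rintro rfl
      rw [map_zero] at ha
      exact absurd ha (not_lt.mpr zero_le)
    have hinv : v a⁻¹ < 1 := by
      rw [map_inv₀]
      exact inv_lt_one_of_one_lt₀ ha
    have hle : ∀ i, v (h.coeff i) ≤ 1 := by
      intro i
      by_cases hi : i = 0
      · rw [hi, h2, map_one]
      · exact (h3 i hi).le
    refine ⟨-a * c, (1 - C a⁻¹ * X) * h, ?_, ?_, fun i hi => ?_⟩
    · rw [Multiset.map_cons, Multiset.prod_cons, h1, C_mul, C_neg]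
      have h4 : C a * C a⁻¹ = (1 : L[X]) := by rw [← C_mul, mul_inv_cancel₀ ha0, C_1]
      linear_combination (- X * C c * h) * h4
    · rw [mul_coeff_zero, h2]
      simp
    · obtain ⟨j, rfl⟩ : ∃ j, i = j + 1 := ⟨i - 1, by omega⟩
      rw [sub_mul, one_mul, mul_assoc, coeff_sub, coeff_C_mul, coeff_X_mul]
      refine lt_of_le_of_lt (Valuation.map_sub v _ _) (max_lt (h3 _ hi) ?_)
      rw [map_mul]
      exact mul_lt_one_of_lt_of_le hinv (hle j)

/-- A polynomial of degree `≤ N` with integral coefficients: `P(x) = c_N x^N + o(x^N)` if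
`|x| > 1`. -/
theorem eval_sub_lt {P : L[X]} {N : ℕ} (hdeg : P.natDegree ≤ N) (hP : ∀ i, v (P.coeff i) ≤ 1)
    {x : L} (hx : 1 < v x) : v (P.eval x - P.coeff N * x ^ N) < v x ^ N := by
  have hx0 : v x ≠ 0 := (lt_trans zero_lt_one hx).ne'
  rw [eval_eq_sum_range' (Nat.lt_succ_of_le hdeg), Finset.sum_range_succ, add_sub_cancel_right]
  rcases Nat.eq_zero_or_pos N with rfl | hN
  · simp
  refine Valuation.map_sum_lt v (pow_ne_zero _ hx0) fun i hi => ?_
  rw [Finset.mem_range] at hi
  rw [map_mul, map_pow]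
  calc v (P.coeff i) * v x ^ i ≤ 1 * v x ^ i := mul_le_mul_left (hP i) _
    _ = v x ^ i := one_mul _
    _ < v x ^ N := pow_lt_pow_right₀ hx hi

end val

section newton

variable {L : Type*} [Field L] (A : ValuationSubring L) {p : ℕ}

theorem val_intCast_le_one (m : ℤ) : A.valuation (m : L) ≤ 1 :=
  (A.valuation_le_one_iff _).mpr (intCast_mem A m)

theorem val_natCast_le_one (m : ℕ) : A.valuation (m : L) ≤ 1 :=
  (A.valuation_le_one_iff _).mpr (natCast_mem A m)

theorem val_p_lt_one (hA : A.LiesOverPrime p) : A.valuation (p : L) < 1 :=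
  (ValuationSubring.mem_nonunits_iff _).mp hA

theorem val_intCast_eq_one (hp : p.Prime) (hA : A.LiesOverPrime p) {m : ℤ} (hm : ¬ (p : ℤ) ∣ m) :
    A.valuation (m : L) = 1 := by
  refine le_antisymm (val_intCast_le_one A m) ?_
  by_contra hlt
  rw [not_le] at hlt
  refine EllRed.intCast_residueField_ne_zero hp hA hm ?_
  rw [← map_intCast (IsLocalRing.residue A), IsLocalRing.residue_eq_zero_iff,
    ← ValuationSubring.coe_mem_nonunits_iff, ValuationSubring.mem_nonunits_iff]
  simpa using! hlt

theorem val_natCast_eq_one (hp : p.Prime) (hA : A.LiesOverPrime p) {m : ℕ} (hm : ¬ p ∣ m) :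
    A.valuation (m : L) = 1 := by
  have := val_intCast_eq_one A hp hA (m := m) (by exact_mod_cast hm)
  simpa using this

/-- **The Newton polygon argument.** -/
theorem val_root_pow [IsAlgClosed L] (hp : p.Prime) (hA : A.LiesOverPrime p)
    (hp0 : (p : L) ≠ 0) {f : ℤ[X]}
    (hf : f.leadingCoeff = p) (hdeg : 0 < f.natDegree)
    (hroots : ∀ a : L, (f.map (Int.castRingHom L)).eval a = 0 → 1 < A.valuation a) {x : L}
    (hx : (f.map (Int.castRingHom L)).eval x = 0) :
    A.valuation (p : L) * A.valuation x ^ f.natDegree = 1 := by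
  set F := f.map (Int.castRingHom L) with hF
  set n := f.natDegree with hn
  set v := A.valuation with hv
  have hcoeff : ∀ i, F.coeff i = (f.coeff i : L) := fun i => by rw [hF, coeff_map]; rfl
  have hFn : F.coeff n = (p : L) := by
    rw [hcoeff, hn, coeff_natDegree, hf]
    simp
  have hvp : 0 < v (p : L) := by rw [hv, Valuation.pos_iff]; exact hp0
  have hF0 : F ≠ 0 := by
    intro h
    rw [h, coeff_zero] at hFn
    exact hp0 hFn.symm
  have hFdeg : F.natDegree = n := by
    refine le_antisymm natDegree_map_le (le_natDegree_of_ne_zero ?_)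
    rw [hFn]; exact hp0
  -- factorisation
  obtain ⟨c, h, hc, h0, hi⟩ := exists_prod_form v F.roots fun a ha => by
    refine hroots a ?_
    exact (mem_roots hF0).mp ha
  have hfac : F = C (F.leadingCoeff * c) * h := by
    conv_lhs => rw [(IsAlgClosed.splits F).eq_prod_roots]
    rw [hc, C_mul, mul_assoc]
  set c₀ := F.leadingCoeff * c with hc₀
  have hFi : ∀ i, F.coeff i = c₀ * h.coeff i := by
    intro i
    conv_lhs => rw [hfac]
    rw [coeff_C_mul]
  have hF0' : F.coeff 0 = c₀ := by rw [hFi, h0, mul_one]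
  have hc₀0 : c₀ ≠ 0 := by
    intro h1
    rw [hfac, h1, C_0, zero_mul] at hF0
    exact hF0 rfl
  have hvc₀ : 0 < v c₀ := by rw [hv, Valuation.pos_iff]; exact hc₀0
  have hlt : ∀ i, i ≠ 0 → v (F.coeff i) < v c₀ := by
    intro i h1
    rw [hFi, map_mul]
    calc v c₀ * v (h.coeff i) < v c₀ * 1 := mul_lt_mul_of_pos_left (hi i h1) hvc₀
      _ = v c₀ := mul_one _
  -- the constant term is a unit
  have hunit : v c₀ = 1 := by
    have h1 := hlt n hdeg.ne'
    rw [hFn] at h1
    rw [← hF0', hcoeff] at h1 ⊢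
    refine val_intCast_eq_one A hp hA fun h2 => ?_
    obtain ⟨d, hd⟩ := h2
    rw [hd] at h1
    push_cast at h1
    rw [map_mul] at h1
    have h3 := mul_le_mul_right (val_intCast_le_one A d) (v (p : L))
    rw [mul_one] at h3
    exact absurd h1 (not_lt.mpr h3)
  -- the other coefficients are divisible by `p`
  have hle : ∀ i, i ≠ 0 → v (F.coeff i) ≤ v (p : L) := by
    intro i h1
    have h2 := hlt i h1
    rw [hunit, hcoeff] at h2
    have h3 : (p : ℤ) ∣ f.coeff i := by
      by_contra h3
      rw [val_intCast_eq_one A hp hA h3] at h2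
      exact lt_irrefl _ h2
    obtain ⟨d, hd⟩ := h3
    rw [hcoeff, hd]
    push_cast
    rw [map_mul]
    have h3 := mul_le_mul_right (val_intCast_le_one A d) (v (p : L))
    rwa [mul_one] at h3
  have hvx : 1 < v x := hroots x hx
  have hvx0 : 0 < v x := zero_lt_one.trans hvx
  -- evaluate
  rw [eval_eq_sum_range, hFdeg, Finset.sum_range_succ, Finset.sum_range_eq_add_Ico _ hdeg] at hx
  have hmid : v (∑ i ∈ Finset.Ico 1 n, F.coeff i * x ^ i) < v (p : L) * v x ^ n := by
    refine Valuation.map_sum_lt v (mul_ne_zero hvp.ne' (pow_ne_zero _ hvx0.ne')) fun i hi => ?_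
    rw [Finset.mem_Ico] at hi
    rw [map_mul, map_pow]
    calc v (F.coeff i) * v x ^ i ≤ v (p : L) * v x ^ i := mul_le_mul_left (hle i (by omega)) _
      _ < v (p : L) * v x ^ n := mul_lt_mul_of_pos_left (pow_lt_pow_right₀ hvx hi.2) hvp
  have htop : v (F.coeff n * x ^ n) = v (p : L) * v x ^ n := by rw [map_mul, map_pow, hFn]
  have hsum : v (F.coeff n * x ^ n + ∑ i ∈ Finset.Ico 1 n, F.coeff i * x ^ i) =
      v (p : L) * v x ^ n := by
    rw [Valuation.map_add_eq_of_lt_left v (by rw [htop]; exact hmid), htop]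
  have h1 : F.coeff n * x ^ n + ∑ i ∈ Finset.Ico 1 n, F.coeff i * x ^ i = - F.coeff 0 := by
    rw [pow_zero, mul_one] at hx
    linear_combination hx
  rw [h1, Valuation.map_neg, hF0', hunit] at hsum
  exact hsum.symm

end newton

end Fermat.Agent.RT.HTW
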