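import Mathlib
import Fermat.Agent.RT.HTW.Newton
import Fermat.Agent.RT.SelTame
import Fermat.Agent.TWP.Tame
import Fermat.Agent.DR.InertiaValue
import Fermat.Agent.EllTorsion.Card
import Fermat.Agent.EllTorsion.MulXDivPoly
import Fermat.Agent.EllTate.Model

/-!
# The supersingular case

If all nonzero points of `E[p]` reduce to `0` at a place over `p` then the tame characters of inertia
on `x(P)` are of level two.
-/

set_option autoImplicit false

open Polynomial
open WeierstrassCurve WeierstrassCurve.Affine WeierstrassCurve.Affine.Point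
open scoped WeierstrassCurve.Affine
open Fermat.Agent.TWP.Tame

namespace Fermat.Agent.RT.HTW

local notation "Γℚ" => (AlgebraicClosure ℚ ≃ₐ[ℚ] AlgebraicClosure ℚ)
local notation "Qb" => AlgebraicClosure ℚ

section curve

variable (W : WeierstrassCurve ℤ)

theorem baseChange_eq_map : ((W.map (Int.castRingHom ℚ))⁄Qb : WeierstrassCurve Qb) =
    W.map (Int.castRingHom Qb) := by
  change (W.map (Int.castRingHom ℚ)).map (algebraMap ℚ Qb) = _
  rw [WeierstrassCurve.map_map]
  congr 1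

theorem isElliptic_qb (hΔ : W.Δ ≠ 0) :
    WeierstrassCurve.IsElliptic ((W.map (Int.castRingHom ℚ))⁄Qb : WeierstrassCurve Qb) := by
  refine ⟨?_⟩
  rw [LOC.baseChange_int_Δ]
  exact isUnit_iff_ne_zero.mpr (Int.cast_ne_zero.mpr hΔ)

variable {W} (A : ValuationSubring Qb) {p : ℕ}

/-- **`x(mP) ≡ m⁻² x(P)`** for points in the kernel of reduction, `p ∤ m`. -/
theorem mul_point_val (hΔ : W.Δ ≠ 0) (hp : p.Prime) (hA : A.LiesOverPrime p) {m : ℕ}
    (hm : ¬ p ∣ m) {x y : Qb} (h : ((W.map (Int.castRingHom ℚ))⁄Qb).Nonsingular x y)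
    (hx : 1 < A.valuation x) {x' y' : Qb}
    (h' : ((W.map (Int.castRingHom ℚ))⁄Qb).Nonsingular x' y')
    (e : m • (.some x y h : ((W.map (Int.castRingHom ℚ))⁄Qb).Point) = .some x' y' h') :
    A.valuation (x' * (m : Qb) ^ 2 - x) < A.valuation x := by
  have hell := isElliptic_qb W hΔ
  have hM := EllTorsion.isMulX_Φ_ΨSq ((W.map (Int.castRingHom ℚ))⁄Qb) m
  set v := A.valuation with hv
  set P := WeierstrassCurve.Φ ((W.map (Int.castRingHom ℚ))⁄Qb) (m : ℤ) with hP
  set B := WeierstrassCurve.ΨSq ((W.map (Int.castRingHom ℚ))⁄Qb) (m : ℤ) with hB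
  have hPc : ∀ i, v (P.coeff i) ≤ 1 := by
    intro i
    rw [hP, baseChange_eq_map, WeierstrassCurve.map_Φ, coeff_map]
    exact val_intCast_le_one A _
  have hBc : ∀ i, v ((X * B).coeff i) ≤ 1 := by
    intro i
    rcases i with _ | i
    · simp
    · rw [coeff_X_mul, hB, baseChange_eq_map, WeierstrassCurve.map_ΨSq, coeff_map]
      exact val_intCast_le_one A _
  have h1 := eval_sub_lt v hM.deg.le hPc hx
  have h2 := eval_sub_lt v hM.degB hBc hx
  rw [show P.coeff (m ^ 2) = 1 from by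
    have := hM.monic
    rw [Polynomial.Monic, Polynomial.leadingCoeff, hM.deg] at this
    exact this, one_mul] at h1
  rw [hM.coeffB] at h2
  have h3 := hM.eval x y h
  rw [e, xRep_some] at h3
  simp only [Fin.isValue, Matrix.cons_val_zero, Matrix.cons_val_one, one_mul] at h3
  set N := m ^ 2 with hN
  set a := P.eval x - x ^ N with ha
  set b := (X * B).eval x - (m : Qb) ^ 2 * x ^ N with hb
  have hvm : v ((m : Qb) ^ 2) = 1 := by
    rw [map_pow, val_natCast_eq_one A hp hA hm, one_pow]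
  have hrel : x' * ((m : Qb) ^ 2 * x ^ N + b) = x * (x ^ N + a) := by
    have e1 : (m : Qb) ^ 2 * x ^ N + b = x * B.eval x := by
      rw [hb, eval_mul, eval_X]; ring
    have e2 : x ^ N + a = P.eval x := by rw [ha]; ring
    rw [e1, e2, ← h3]; ring
  have hx0 : 0 < v x := zero_lt_one.trans hx
  have hxN : 0 < v x ^ N := pow_pos hx0 N
  have e1 : v ((m : Qb) ^ 2 * x ^ N + b) = v x ^ N := by
    have : v ((m : Qb) ^ 2 * x ^ N) = v x ^ N := by rw [map_mul, hvm, one_mul, map_pow]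
    rw [Valuation.map_add_eq_of_lt_left v (by rw [this]; exact h2), this]
  have e2 : v (x ^ N + a) = v x ^ N := by
    have : v (x ^ N) = v x ^ N := map_pow _ _ _
    rw [Valuation.map_add_eq_of_lt_left v (by rw [this]; exact h1), this]
  have hvx' : v x' = v x := by
    have := congrArg v hrel
    rw [map_mul, map_mul, e1, e2] at this
    exact mul_right_cancel₀ hxN.ne' this
  have hkey : (x' * (m : Qb) ^ 2 - x) * x ^ N = x * a - x' * b := by linear_combination hrel
  have h4 : v ((x' * (m : Qb) ^ 2 - x) * x ^ N) < v x * v x ^ N := by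
    rw [hkey]
    refine lt_of_le_of_lt (Valuation.map_sub v _ _) (max_lt ?_ ?_)
    · rw [map_mul]
      exact mul_lt_mul_of_pos_left h1 hx0
    · rw [map_mul, hvx']
      exact mul_lt_mul_of_pos_left h2 hx0
  rw [map_mul, map_pow] at h4
  exact lt_of_mul_lt_mul_right h4 hxN.le

end curve

section tame

theorem eq_one_of_pow {Γ₀ : Type*} [LinearOrderedCommGroupWithZero Γ₀] {a : Γ₀} {n : ℕ}
    (hn : n ≠ 0) (h : a ^ n = 1) : a = 1 := by
  rcases lt_trichotomy a 1 with h1 | h1 | h1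
  · exact absurd h (pow_lt_one₀ zero_le h1 hn).ne
  · exact h1
  · exact absurd h (one_lt_pow₀ h1 hn).ne'

variable {A : ValuationSubring Qb} {p : ℕ}

theorem th_pow_arg {x : Qb} (hx : x ≠ 0) (n : ℕ) (σ : A.inertiaSubgroupIn ℚ) :
    th (A := A) (x ^ n) (pow_ne_zero n hx) σ = th x hx σ ^ n := by
  rw [th, th, ← map_pow]
  congr 1
  apply Subtype.ext
  show σ.1 (x ^ n) / x ^ n = (σ.1 x / x) ^ n
  rw [map_pow, div_pow]

/-- If `τ² x ≡ m⁻² x` then `τ` fixes `x ^ (p - 1)` up to principal units. -/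
theorem tt_of_sq (hp : p.Prime) (hp2 : p ≠ 2) (hA : A.LiesOverPrime p) {τ : Γℚ}
    (hτ : τ ∈ A.inertiaSubgroupIn ℚ) {x : Qb} (hx : x ≠ 0) {m : ℕ} (hm : ¬ p ∣ m)
    (h : A.valuation ((τ * τ) x * (m : Qb) ^ 2 - x) < A.valuation x) :
    TT A τ (x ^ (p - 1)) := by
  have hfact : Fact p.Prime := ⟨hp⟩
  have hchar : CharP (IsLocalRing.ResidueField A) p := EllRed.charP_residueField hp hA
  let τ' : A.inertiaSubgroupIn ℚ := ⟨τ, hτ⟩
  set t := th x hx τ' with ht
  have h1 : th x hx (τ' * τ') * (m : IsLocalRing.ResidueField A) ^ 2 = 1 := by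
    rw [th, ← map_natCast (IsLocalRing.residue A), ← map_pow, ← map_mul, ← sub_eq_zero,
      ← map_one (IsLocalRing.residue A), ← map_sub, IsLocalRing.residue_eq_zero_iff,
      ← ValuationSubring.coe_mem_nonunits_iff, ValuationSubring.mem_nonunits_iff]
    have e : ((⟨(τ' * τ').1 x / x, (A.valuation_le_one_iff _).mp (unit_div (τ' * τ').2 hx).le⟩ *
        (m : A) ^ 2 - 1 : A) : Qb) = ((τ * τ) x * (m : Qb) ^ 2 - x) / x := by
      push_cast
      show (τ * τ) x / x * (m : Qb) ^ 2 - 1 = _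
      field_simp
    rw [e, map_div₀, div_lt_one₀ ((A.valuation).pos_iff.mpr hx)]
    exact h
  rw [th_mul, ← ht] at h1
  have h2 : (t * (m : IsLocalRing.ResidueField A)) ^ 2 = 1 := by rw [← h1]; ring
  have heven : Even (p - 1) := hp.even_sub_one hp2
  have h3 : (t * (m : IsLocalRing.ResidueField A)) ^ (p - 1) = 1 := by
    obtain ⟨k, hk⟩ := heven
    rw [hk, ← two_mul, pow_mul, h2, one_pow]
  have h4 : (m : IsLocalRing.ResidueField A) ^ (p - 1) = 1 := by
    have h5 : (m : ZMod p) ≠ 0 := by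
      rw [Ne, ZMod.natCast_eq_zero_iff]; exact hm
    have h6 := congrArg (ZMod.castHom (dvd_refl p) (IsLocalRing.ResidueField A))
      (ZMod.pow_card_sub_one_eq_one h5)
    rwa [map_pow, map_one, map_natCast] at h6
  rw [mul_pow, h4, mul_one, ht, ← th_pow_arg] at h3
  exact (th_eq_one_iff _ _ _).mp h3

/-- A root of unity of order prime to the residue characteristic congruent to `1` is `1`. -/
theorem eq_one_of_pow_eq_one (hp : p.Prime) (hA : A.LiesOverPrime p) {n : ℕ} (hn : ¬ p ∣ n)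
    {ζ : Qb} (hζ : ζ ^ n = 1) (h : A.valuation (ζ - 1) < 1) : ζ = 1 := by
  by_contra hne
  have h1 : (∑ i ∈ Finset.range n, ζ ^ i) = 0 := by
    have h2 := mul_neg_geom_sum ζ n
    rw [hζ, sub_self] at h2
    exact (mul_eq_zero.mp h2).resolve_left (fun h3 => hne (by linear_combination -h3))
  have hζv : A.valuation ζ ≤ 1 := by
    have : ζ = (ζ - 1) + 1 := by ring
    rw [this]
    refine (Valuation.map_add _ _ _).trans (max_le h.le ?_)
    rw [map_one]
  have h2 : ∀ i : ℕ, A.valuation (ζ ^ i - 1) < 1 := by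
    intro i
    induction i with
    | zero => simp
    | succ i ih =>
      have : ζ ^ (i + 1) - 1 = ζ * (ζ ^ i - 1) + (ζ - 1) := by ring
      rw [this]
      refine lt_of_le_of_lt (Valuation.map_add _ _ _) (max_lt ?_ h)
      rw [map_mul, mul_comm]
      exact mul_lt_one_of_lt_of_le ih hζv
  have h3 : A.valuation ((∑ i ∈ Finset.range n, ζ ^ i) - n) < 1 := by
    have : (∑ i ∈ Finset.range n, ζ ^ i) - n = ∑ i ∈ Finset.range n, (ζ ^ i - 1) := by
      rw [Finset.sum_sub_distrib]; simp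
    rw [this]
    exact Valuation.map_sum_lt _ one_ne_zero fun i _ => h2 i
  rw [h1, zero_sub, Valuation.map_neg, val_natCast_eq_one A hp hA hn] at h3
  exact lt_irrefl _ h3

/-- The tame character of `x` has order not dividing `p - 1` if `|x| ^ ((p²-1)/2) = |p|⁻¹`. -/
theorem not_all_tt (hp : p.Prime) (hp2 : p ≠ 2) (hA : A.LiesOverPrime p) {x : Qb}
    (hx : A.valuation (p : Qb) * A.valuation x ^ ((p ^ 2 - 1) / 2) = 1) :
    ¬ ∀ σ ∈ A.inertiaSubgroupIn ℚ, TT A σ (x ^ (p - 1)) := by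
  intro hall
  have hp3 : 3 ≤ p := by
    have := hp.two_le
    omega
  have hn : 2 * ((p ^ 2 - 1) / 2) = (p - 1) * (p + 1) := by
    have h1 : p ^ 2 - 1 = (p - 1) * (p + 1) := by
      obtain ⟨k, rfl⟩ : ∃ k, p = k + 1 := ⟨p - 1, by omega⟩
      rw [Nat.add_sub_cancel]
      have : (k + 1) ^ 2 = k * (k + 1 + 1) + 1 := by ring
      rw [this, Nat.add_sub_cancel]
    rw [← h1]
    refine Nat.mul_div_cancel' ?_
    rw [h1]
    exact Dvd.dvd.mul_right (hp.even_sub_one hp2).two_dvd _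
  set n := (p ^ 2 - 1) / 2 with hndef
  set v := A.valuation with hv
  have hn0 : n ≠ 0 := by
    intro h0
    rw [h0, mul_zero] at hn
    have : 0 < (p - 1) * (p + 1) := Nat.mul_pos (by omega) (by omega)
    omega
  have hp0 : (p : Qb) ≠ 0 := Nat.cast_ne_zero.mpr hp.ne_zero
  have hvp0 : v (p : Qb) ≠ 0 := (Valuation.ne_zero_iff v).mpr hp0
  have hx0 : x ≠ 0 := by
    rintro rfl
    rw [_root_.map_zero, zero_pow hn0, mul_zero] at hx
    exact zero_ne_one hx
  obtain ⟨w, hw⟩ := IsAlgClosed.exists_pow_nat_eq (p : Qb) (n := p + 1) (by omega)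
  have hw0 : w ≠ 0 := by
    rintro rfl
    rw [zero_pow (by omega)] at hw
    exact hp0 hw.symm
  have hvw : v w ^ (p + 1) = v (p : Qb) := by rw [← map_pow, hw]
  -- `u = x ^ (p - 1) w²` is a unit
  have hu : v (x ^ (p - 1) * w ^ 2) = 1 := by
    have h1 : v (x ^ (p - 1) * w ^ 2) ^ (p + 1) = 1 := by
      rw [map_mul, map_pow, map_pow, mul_pow, ← pow_mul, ← pow_mul, ← hn, mul_comm 2 (p + 1),
        pow_mul (v w), hvw, mul_comm 2 n, pow_mul (v x), ← mul_pow, mul_comm, hx, one_pow]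
    exact eq_one_of_pow (by omega) h1
  have hfix : ∀ σ ∈ A.inertiaSubgroupIn ℚ, σ (w ^ 2) = w ^ 2 := by
    intro σ hσ
    have h1 : TT A σ (w ^ 2) := by
      have h2 := (TT.of_unit hσ hu).mul hσ ((hall σ hσ).inv hσ)
      have e : x ^ (p - 1) * w ^ 2 * (x ^ (p - 1))⁻¹ = w ^ 2 := by
        field_simp
      rwa [e] at h2
    have hww : w ^ 2 ≠ 0 := pow_ne_zero 2 hw0
    have h3 : σ (w ^ 2) / w ^ 2 = 1 := by
      refine eq_one_of_pow_eq_one (n := p + 1) hp hA ?_ ?_ ?_
      · intro hd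
        have : p ∣ 1 := (Nat.dvd_add_right (dvd_refl p)).mp hd
        exact hp.one_lt.ne' (Nat.dvd_one.mp this)
      · have e : (w ^ 2) ^ (p + 1) = (p : Qb) ^ 2 := by
          rw [← pow_mul, mul_comm, pow_mul, hw]
        rw [div_pow, ← map_pow, e, map_pow, map_natCast, div_self (pow_ne_zero 2 hp0)]
      · have e : σ (w ^ 2) / w ^ 2 - 1 = (σ (w ^ 2) - w ^ 2) / w ^ 2 := by field_simp
        rw [e, map_div₀, div_lt_one₀ ((A.valuation).pos_iff.mpr hww)]
        exact h1
    rwa [div_eq_one_iff_eq hww] at h3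
  obtain ⟨k, hk⟩ := DR.InertiaValue.exists_zpow_of_inertia_fixed A hp hA
    (pow_ne_zero 2 hw0) hfix
  have h1 : v (p : Qb) ^ (2 + k * (p + 1) : ℤ) = 1 := by
    have h2 : (v (w ^ 2 * (p : Qb) ^ k)) ^ (p + 1) = 1 := by rw [hv, hk, one_pow]
    rw [map_mul, map_pow, map_zpow₀, mul_pow, ← pow_mul, mul_comm 2, pow_mul, hvw] at h2
    rw [zpow_add₀ hvp0, zpow_mul, ← h2]
    norm_cast
  have hlt : v (p : Qb) < 1 := val_p_lt_one A hA
  have hexp : (2 + k * (p + 1) : ℤ) = 0 := by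
    by_contra hne
    rcases lt_or_gt_of_ne hne with h2 | h2
    · have h3 := one_lt_zpow_of_neg₀ (zero_lt_iff.mpr hvp0) hlt h2
      rw [h1] at h3
      exact lt_irrefl _ h3
    · have h3 := zpow_lt_one₀ (zero_lt_iff.mpr hvp0) hlt h2
      rw [h1] at h3
      exact lt_irrefl _ h3
  have hdvd : ((p + 1 : ℕ) : ℤ) ∣ 2 := ⟨-k, by push_cast; linarith⟩
  have hdvd' : p + 1 ∣ 2 := by exact_mod_cast hdvd
  have := Nat.le_of_dvd (by norm_num) hdvd'
  omega

end tame

end Fermat.Agent.RT.HTW
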