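import Mathlib
import Fermat.Agent.RT.HTW.SS
import Fermat.Agent.LOC.Component
import Fermat.Agent.BrauerNesbittGalois

/-!
# `E[p]` restricted to inertia at `p`, semistable reduction

Either all elements `σ` of the inertia group have an eigenvalue `1` on `E[p]` (good ordinary and
multiplicative reduction) or inertia is not contained in an induced subgroup of index two.
-/

set_option autoImplicit false

open Polynomial
open WeierstrassCurve WeierstrassCurve.Affine WeierstrassCurve.Affine.Point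
open scoped WeierstrassCurve.Affine
open Fermat.Agent.TWP.Tame Fermat.Agent.RedHom

namespace Fermat.Agent.RT.HTW

local notation "Γℚ" => (AlgebraicClosure ℚ ≃ₐ[ℚ] AlgebraicClosure ℚ)
local notation "Qb" => AlgebraicClosure ℚ

section cayley

variable {k V : Type*} [Field k] [AddCommGroup V] [Module k V]

theorem cayley (h : Module.finrank k V = 2) (f : Module.End k V) (x : V) :
    f (f x) = LinearMap.trace k V f • f x - LinearMap.det f • x := by
  have hfin : Module.Finite k V := Module.finite_of_finrank_eq_succ h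
  have h1 := LinearMap.aeval_self_charpoly f
  rw [BN2.charpoly_eq_of_finrank_two h] at h1
  have h2 := congrArg (fun g => g x) h1
  simp only [map_add, map_sub, map_mul, aeval_X, aeval_C, LinearMap.add_apply,
    LinearMap.sub_apply, LinearMap.zero_apply, Module.End.mul_apply, pow_two,
    Module.algebraMap_end_apply] at h2
  rw [← sub_eq_zero, ← h2]
  abel

/-- If `f - 1` misses a vector then `tr f = 1 + det f`. -/
theorem trace_eq_of_not_surjective (h : Module.finrank k V = 2) (f : Module.End k V) (P : V)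
    (hP : ∀ Q, f Q - Q ≠ P) : LinearMap.trace k V f = 1 + LinearMap.det f := by
  by_contra hne
  set t := LinearMap.trace k V f with ht
  set d := LinearMap.det f with hd
  have hc : t - 1 - d ≠ 0 := fun h0 => hne (by linear_combination h0)
  apply hP ((t - 1 - d)⁻¹ • (f P - (t - 1) • P))
  rw [map_smul, map_sub, map_smul, cayley h, ← ht, ← hd, ← smul_sub]
  have : t • f P - d • P - (t - 1) • f P - (f P - (t - 1) • P) = (t - 1 - d) • P := by
    module
  rw [this, smul_smul, inv_mul_cancel₀ hc, one_smul]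

end cayley

section dich

variable (W : WeierstrassCurve ℤ) {p : ℕ} (A : ValuationSubring Qb)

theorem val_x_pow (hΔ : W.Δ ≠ 0) (hp : p.Prime) (hp2 : p ≠ 2) (hA : A.LiesOverPrime p)
    (hSS : ∀ (x y : Qb) (h : ((W.map (Int.castRingHom ℚ))⁄Qb).Nonsingular x y),
      p • (.some x y h : ((W.map (Int.castRingHom ℚ))⁄Qb).Point) = 0 → 1 < A.valuation x)
    {x y : Qb} (h : ((W.map (Int.castRingHom ℚ))⁄Qb).Nonsingular x y)
    (hP : p • (.some x y h : ((W.map (Int.castRingHom ℚ))⁄Qb).Point) = 0) :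
    A.valuation (p : Qb) * A.valuation x ^ ((p ^ 2 - 1) / 2) = 1 := by
  have hell := isElliptic_qb W hΔ
  have hM := EllTorsion.isMulX_Φ_ΨSq ((W.map (Int.castRingHom ℚ))⁄Qb) p
  have hodd : ¬ Even p := by
    rw [Nat.not_even_iff_odd]; exact hp.odd_of_ne_two hp2
  have hpZ : ((p : ℕ) : ℤ) ≠ 0 := by exact_mod_cast hp.ne_zero
  have hlead : (W.preΨ' p).leadingCoeff = p := by
    rw [WeierstrassCurve.leadingCoeff_preΨ' _ hpZ, if_neg hodd]
  have hdeg : (W.preΨ' p).natDegree = (p ^ 2 - 1) / 2 := by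
    rw [WeierstrassCurve.natDegree_preΨ' _ hpZ, if_neg hodd]
  have heval : ∀ a : Qb, (WeierstrassCurve.ΨSq ((W.map (Int.castRingHom ℚ))⁄Qb) (p : ℤ)).eval a =
      (((W.preΨ' p).map (Int.castRingHom Qb)).eval a) ^ 2 := by
    intro a
    rw [baseChange_eq_map, WeierstrassCurve.map_ΨSq, WeierstrassCurve.ΨSq_ofNat, if_neg hodd,
      mul_one, Polynomial.map_pow, eval_pow]
  have hroot : ∀ a : Qb, ((W.preΨ' p).map (Int.castRingHom Qb)).eval a = 0 →
      1 < A.valuation a := by
    intro a ha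
    obtain ⟨b, hb⟩ := EllTorsion.exists_nonsingular
      (W := ((W.map (Int.castRingHom ℚ))⁄Qb : WeierstrassCurve Qb)) a
    refine hSS a b hb ?_
    rw [hM.nsmul_eq_zero_iff hb, heval, ha]
    norm_num
  have hx : ((W.preΨ' p).map (Int.castRingHom Qb)).eval x = 0 := by
    have h1 := (hM.nsmul_eq_zero_iff h).mp hP
    rw [heval] at h1
    exact pow_eq_zero_iff (two_ne_zero) |>.mp h1
  rw [← hdeg]
  refine val_root_pow A hp hA (Nat.cast_ne_zero.mpr hp.ne_zero) hlead ?_ hroot hx
  have hp3 : 2 < p := lt_of_le_of_ne hp.two_le (Ne.symm hp2)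
  exact WeierstrassCurve.natDegree_preΨ'_pos _ hp3 hpZ

/-- **The dichotomy at `p`.** -/
theorem dichotomy [hp : Fact p.Prime] (hΔ : W.Δ ≠ 0) (hp2 : p ≠ 2)
    (hss : (p : ℤ) ∣ W.Δ → ¬ (p : ℤ) ∣ W.c₄) (hA : A.LiesOverPrime p) :
    (∀ σ ∈ A.inertiaSubgroupIn ℚ,
      LinearMap.trace (ZMod p) _ (galoisRepModuleEnd (K := Qb) ℚ (W.map (Int.castRingHom ℚ)) p σ) =
        1 + LinearMap.det (galoisRepModuleEnd (K := Qb) ℚ (W.map (Int.castRingHom ℚ)) p σ)) ∨
    (∀ G : Subgroup Γℚ, G.index = 2 → (∀ τ ∈ A.inertiaSubgroupIn ℚ, τ ∉ G →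
      LinearMap.trace (ZMod p) _
        (galoisRepModuleEnd (K := Qb) ℚ (W.map (Int.castRingHom ℚ)) p τ) = 0) →
      A.inertiaSubgroupIn ℚ ≤ G) := by
  have hell := isElliptic_qb W hΔ
  have hpQ : ((p : ℕ) : Qb) ≠ 0 := Nat.cast_ne_zero.mpr hp.out.ne_zero
  have hrank : Module.finrank (ZMod p)
      (Submodule.torsionBy ℤ ((W.map (Int.castRingHom ℚ))⁄Qb).Point p) = 2 :=
    EllTorsion.finrank_torsionBy _ hpQ hp.out.one_lt.ne'
  have htors : ∀ P : Submodule.torsionBy ℤ ((W.map (Int.castRingHom ℚ))⁄Qb).Point p,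
      p • (P : ((W.map (Int.castRingHom ℚ))⁄Qb).Point) = 0 := by
    intro P
    rw [← natCast_zsmul]
    exact (Submodule.mem_torsionBy_iff _ _).mp P.2
  by_cases hSS : ∀ (x y : Qb) (h : ((W.map (Int.castRingHom ℚ))⁄Qb).Nonsingular x y),
      p • (.some x y h : ((W.map (Int.castRingHom ℚ))⁄Qb).Point) = 0 → 1 < A.valuation x
  · right
    intro G hG hGT
    by_contra hnot
    obtain ⟨τ₀, hτ₀, hτ₀G⟩ := SetLike.not_le_iff_exists.mp hnot
    -- a nonzero point
    have hnt : Nontrivial (Submodule.torsionBy ℤ ((W.map (Int.castRingHom ℚ))⁄Qb).Point p) :=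
      Module.nontrivial_of_finrank_pos (R := ZMod p) (by rw [hrank]; norm_num)
    obtain ⟨P, hP0⟩ := exists_ne
      (0 : Submodule.torsionBy ℤ ((W.map (Int.castRingHom ℚ))⁄Qb).Point p)
    obtain ⟨x, y, h, hPxy⟩ : ∃ x y h, (P : ((W.map (Int.castRingHom ℚ))⁄Qb).Point) =
        .some x y h := by
      rcases hP : (P : ((W.map (Int.castRingHom ℚ))⁄Qb).Point) with _ | ⟨x, y, h⟩
      · exact absurd (Subtype.ext hP) hP0
      · exact ⟨x, y, h, rfl⟩
    have hpP := htors P
    rw [hPxy] at hpP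
    have hvx := hSS x y h hpP
    have hx0 : x ≠ 0 := by
      rintro rfl
      rw [_root_.map_zero] at hvx
      exact absurd hvx (not_lt.mpr zero_le)
    have hval := val_x_pow W A hΔ hp.out hp2 hA hSS h hpP
    have hTT : ∀ τ ∈ A.inertiaSubgroupIn ℚ, τ ∉ G → TT A τ (x ^ (p - 1)) := by
      intro τ hτ hτG
      set f := galoisRepModuleEnd (K := Qb) ℚ (W.map (Int.castRingHom ℚ)) p τ with hf
      have h1 := cayley hrank f P
      rw [hGT τ hτ hτG, zero_smul, zero_sub, ← neg_smul] at h1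
      have hdet : LinearMap.det f ≠ 0 := by
        intro h0
        have h2 : LinearMap.det (galoisRepModuleEnd (K := Qb) ℚ (W.map (Int.castRingHom ℚ)) p
            (τ * τ⁻¹)) = 1 := by rw [mul_inv_cancel, map_one, map_one]
        rw [map_mul, map_mul, ← hf, h0, zero_mul] at h2
        exact zero_ne_one h2
      set m := (-LinearMap.det f).val with hm
      have hmd : ((m : ℕ) : ZMod p) = -LinearMap.det f := ZMod.natCast_zmod_val _
      have hpm : ¬ p ∣ m := by
        rw [← ZMod.natCast_eq_zero_iff, hmd, neg_eq_zero]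
        exact hdet
      rw [← hmd, Nat.cast_smul_eq_nsmul] at h1
      have h2 := congrArg
        (Subtype.val : Submodule.torsionBy ℤ ((W.map (Int.castRingHom ℚ))⁄Qb).Point p → _) h1
      have h3 : m • (.some x y h : ((W.map (Int.castRingHom ℚ))⁄Qb).Point) =
          τ • (τ • (.some x y h : ((W.map (Int.castRingHom ℚ))⁄Qb).Point)) := by
        rw [← hPxy]
        exact h2.symm
      refine tt_of_sq hp.out hp2 hA hτ hx0 hpm ?_
      rw [algEquiv_smul_def, algEquiv_smul_def, Point.map_some, Point.map_some] at h3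
      exact mul_point_val A hΔ hp.out hA hpm h hvx _ h3
    refine not_all_tt hp.out hp2 hA hval fun σ hσ => ?_
    by_cases hσG : σ ∈ G
    · have h1 : τ₀⁻¹ * σ ∉ G := by
        rw [Subgroup.mul_mem_iff_of_index_two hG, inv_mem_iff, _root_.not_iff]
        exact iff_of_true hτ₀G hσG
      have h2 := (hTT τ₀ hτ₀ hτ₀G).comp hτ₀ (hTT _ (mul_mem (inv_mem hτ₀) hσ) h1)
      rwa [mul_inv_cancel_left] at h2
    · exact hTT σ hσ hσG
  · left
    classical
    push Not at hSS
    obtain ⟨x, y, h, hP, hvx⟩ := hSS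
    have hred : CurveRed (IsLocalRing.residue A) ((W.map (Int.castRingHom ℚ))⁄Qb)
      (W.map (Int.castRingHom (IsLocalRing.ResidueField A))) := curveRed_int _ W
    have hssU : (W.map (Int.castRingHom (IsLocalRing.ResidueField A))).Δ ≠ 0 ∨
        (W.map (Int.castRingHom (IsLocalRing.ResidueField A))).c₄ ≠ 0 := by
      rw [WeierstrassCurve.map_Δ, WeierstrassCurve.map_c₄]
      by_cases h : (p : ℤ) ∣ W.Δ
      · right
        exact Fermat.Agent.EllRed.intCast_residueField_ne_zero hp.out hA (hss h)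
      · left
        exact Fermat.Agent.EllRed.intCast_residueField_ne_zero hp.out hA h
    intro σ hσ
    by_cases hE0 : ∀ Q : Submodule.torsionBy ℤ ((W.map (Int.castRingHom ℚ))⁄Qb).Point p,
        (Q : ((W.map (Int.castRingHom ℚ))⁄Qb).Point) ∈ E0 hred
    · have hmem : (.some x y h : ((W.map (Int.castRingHom ℚ))⁄Qb).Point) ∈
          Submodule.torsionBy ℤ ((W.map (Int.castRingHom ℚ))⁄Qb).Point p := by
        rw [Submodule.mem_torsionBy_iff, natCast_zsmul]
        exact hP
      refine trace_eq_of_not_surjective hrank _ ⟨_, hmem⟩ fun Q hQ => ?_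
      have h1 := congrArg
        (Subtype.val : Submodule.torsionBy ℤ ((W.map (Int.castRingHom ℚ))⁄Qb).Point p → _) hQ
      have h2 : σ • (Q : ((W.map (Int.castRingHom ℚ))⁄Qb).Point) - Q = .some x y h := h1
      have h3 := EllRed.smul_sub_mem_ker hred hσ (hE0 Q)
      rw [h2, pointRed_some_zero_iff] at h3
      exact h3 ((A.valuation_le_one_iff _).mp hvx)
    · push Not at hE0
      obtain ⟨Q₀, hQ₀⟩ := hE0
      refine trace_eq_of_not_surjective hrank _ Q₀ fun Q hQ => ?_
      have h1 := congrArg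
        (Subtype.val : Submodule.torsionBy ℤ ((W.map (Int.castRingHom ℚ))⁄Qb).Point p → _) hQ
      have h2 : σ • (Q : ((W.map (Int.castRingHom ℚ))⁄Qb).Point) - Q = Q₀ := h1
      apply hQ₀
      rw [← h2]
      exact LOC.smul_sub_mem_E0 two_ne_zero hred hssU hσ _

end dich

end Fermat.Agent.RT.HTW
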