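import Mathlib
import Fermat.Prelude.Def_GaloisRep_Residual
import Fermat.Prelude.Def_GaloisRep_LocalConditions
import Fermat.Agent.QbarInst
import Fermat.Agent.BrauerNesbittGalois

/-!
# Linear algebra of two-dimensional residual representations

* `exists_conj` : existence of a complex conjugation;
* `isIrreducible_baseChange` : odd + irreducible implies irreducible after every base change;
* `exists_swap` : a stable line of a subgroup of index two of an irreducible representation.
-/

set_option autoImplicit false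

open Polynomial
open ResidualGaloisRep
open scoped TensorProduct

namespace Fermat.Agent.RT.HTW

local notation "Γℚ" => (AlgebraicClosure ℚ ≃ₐ[ℚ] AlgebraicClosure ℚ)

/-- Existence of a complex conjugation. -/
theorem exists_conj : ∃ c : Γℚ, c * c = 1 ∧ c ≠ 1 := by
  let ι : AlgebraicClosure ℚ →ₐ[ℚ] ℂ := IsAlgClosed.lift
  let _ : Algebra (AlgebraicClosure ℚ) ℂ := ι.toRingHom.toAlgebra
  have : IsScalarTower ℚ (AlgebraicClosure ℚ) ℂ := IsScalarTower.of_algebraMap_eq' (Subsingleton.elim _ _)
  let cc : ℂ ≃ₐ[ℚ] ℂ := Complex.conjAe.restrictScalars ℚ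
  let c : AlgebraicClosure ℚ ≃ₐ[ℚ] AlgebraicClosure ℚ := cc.restrictNormal (AlgebraicClosure ℚ)
  have hc : ∀ x, algebraMap (AlgebraicClosure ℚ) ℂ (c x) = (starRingEnd ℂ) (algebraMap _ ℂ x) :=
    fun x => AlgEquiv.restrictNormal_commutes cc _ x
  refine ⟨c, ?_, ?_⟩
  · ext x
    apply (algebraMap (AlgebraicClosure ℚ) ℂ).injective
    rw [AlgEquiv.mul_apply, hc, hc, AlgEquiv.one_apply, Complex.conj_conj]
  · intro h
    obtain ⟨i, hi⟩ := IsAlgClosed.exists_pow_nat_eq (-1 : AlgebraicClosure ℚ) (n := 2) (by norm_num)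
    have h1 := hc i
    rw [h, AlgEquiv.one_apply] at h1
    have h2 : (algebraMap (AlgebraicClosure ℚ) ℂ i) ^ 2 = -1 := by
      rw [← map_pow, hi, map_neg, map_one]
    obtain ⟨r, hr⟩ := Complex.conj_eq_iff_real.mp h1.symm
    rw [hr] at h2
    have h3 : (r : ℝ) ^ 2 = -1 := by exact_mod_cast h2
    nlinarith [sq_nonneg r]

section abs

variable {k : Type} [Field k] (ρ : ResidualGaloisRep k)

/-- An involution of determinant `-1` is diagonalisable with eigenvalues `1, -1`. -/
theorem exists_eigenbasis (h2 : (2 : k) ≠ 0) {V : Type} [AddCommGroup V] [Module k V]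
    (hV : Module.finrank k V = 2) (c : Module.End k V) (hc : c * c = 1)
    (hdet : LinearMap.det c = -1) :
    ∃ b : Module.Basis (Fin 2) k V, c (b 0) = b 0 ∧ c (b 1) = - b 1 := by
  have hc' : ∀ x, c (c x) = x := fun x => by
    rw [← Module.End.mul_apply, hc, Module.End.one_apply]
  have h1 : ∃ y, c y + y ≠ 0 := by
    by_contra hcon
    push Not at hcon
    have h3 : c = (-1 : k) • LinearMap.id := by
      ext x
      rw [LinearMap.smul_apply, LinearMap.id_apply, neg_one_smul]
      exact eq_neg_of_add_eq_zero_left (hcon x)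
    rw [h3, LinearMap.det_smul, hV, LinearMap.det_id, mul_one] at hdet
    apply h2
    linear_combination hdet
  have h1' : ∃ y, c y - y ≠ 0 := by
    by_contra hcon
    push Not at hcon
    have h3 : c = LinearMap.id := by
      ext x
      exact sub_eq_zero.mp (hcon x)
    rw [h3, LinearMap.det_id] at hdet
    apply h2
    linear_combination hdet
  obtain ⟨y, hy⟩ := h1
  obtain ⟨x, hx⟩ := h1'
  have e1 : c (c y + y) = c y + y := by rw [map_add, hc', add_comm]
  have e2 : c (c x - x) = - (c x - x) := by rw [map_sub, hc']; abel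
  have hli : LinearIndependent k ![c y + y, c x - x] := by
    rw [LinearIndependent.pair_iff]
    intro s t hst
    have h4 := congrArg c hst
    rw [map_add, map_smul, map_smul, e1, e2, map_zero, smul_neg] at h4
    have h5 : (2 * s) • (c y + y) = 0 := by
      have : (2 * s) • (c y + y) = (s • (c y + y) + t • (c x - x)) +
        (s • (c y + y) + -(t • (c x - x))) := by rw [two_mul, add_smul]; abel
      rw [this, hst, h4, add_zero]
    have hs : s = 0 := by
      rcases smul_eq_zero.mp h5 with h6 | h6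
      · exact (mul_eq_zero.mp h6).resolve_left h2
      · exact absurd h6 hy
    refine ⟨hs, ?_⟩
    rw [hs, zero_smul, zero_add] at hst
    exact (smul_eq_zero.mp hst).resolve_right hx
  refine ⟨basisOfLinearIndependentOfCardEqFinrank hli (by rw [hV]; rfl), ?_, ?_⟩
  · rw [coe_basisOfLinearIndependentOfCardEqFinrank]
    exact e1
  · rw [coe_basisOfLinearIndependentOfCardEqFinrank]
    exact e2

/-- **An odd irreducible representation stays irreducible after extension of scalars**
(characteristic `≠ 2`). -/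
theorem isIrreducible_baseChange (h2 : (2 : k) ≠ 0) (hirr : ρ.IsIrreducible) (c : Γℚ)
    (hc : ρ.ρ c * ρ.ρ c = 1) (hdet : LinearMap.det (ρ.ρ c) = -1)
    (K : Type) [Field K] [Algebra k K] : (ρ.baseChange K).IsIrreducible := by
  obtain ⟨b, hb0, hb1⟩ := exists_eigenbasis h2 ρ.finrank_eq (ρ.ρ c) hc hdet
  set B : Module.Basis (Fin 2) K (K ⊗[k] ρ.V) := b.baseChange K with hB
  have hBi : ∀ i, B i = 1 ⊗ₜ[k] b i := fun i => Module.Basis.baseChange_apply K b i
  have h2K : (2 : K) ≠ 0 := by
    intro h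
    apply h2
    apply (algebraMap k K).injective
    rw [map_ofNat, map_zero, h]
  intro V hV
  by_contra hcon
  rw [not_or] at hcon
  obtain ⟨hne, hnt⟩ := hcon
  have hρ : ∀ (σ : Γℚ) (x : ρ.V), (ρ.baseChange K).ρ σ (1 ⊗ₜ[k] x) = 1 ⊗ₜ[k] ρ.ρ σ x := by
    intro σ x
    exact LinearMap.baseChange_tmul _ _ _
  -- not both basis vectors are in `V`
  have hnot : ¬ (B 0 ∈ V ∧ B 1 ∈ V) := by
    rintro ⟨h0, h1⟩
    apply hnt
    rw [eq_top_iff, ← B.span_eq, Submodule.span_le]
    rintro _ ⟨i, rfl⟩
    fin_cases i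
    · exact h0
    · exact h1
  -- one of them is
  have hone : B 0 ∈ V ∨ B 1 ∈ V := by
    obtain ⟨v, hv, hv0⟩ := Submodule.exists_mem_ne_zero_of_ne_bot hne
    have hvB : v = B.repr v 0 • B 0 + B.repr v 1 • B 1 := by
      conv_lhs => rw [← B.sum_repr v]
      rw [Fin.sum_univ_two]
    have hcv := hV c v hv
    have e : (ρ.baseChange K).ρ c v = B.repr v 0 • B 0 - B.repr v 1 • B 1 := by
      conv_lhs => rw [hvB]
      rw [map_add, map_smul, map_smul, hBi, hBi, hρ, hρ, hb0, hb1, TensorProduct.tmul_neg,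
        smul_neg, sub_eq_add_neg]
    rw [e] at hcv
    by_cases h0 : B.repr v 0 = 0
    · right
      have h1 : B.repr v 1 ≠ 0 := by
        intro h1
        rw [h0, h1, zero_smul, zero_smul, add_zero] at hvB
        exact hv0 hvB
      rw [h0, zero_smul, zero_add] at hvB
      rw [hvB] at hv
      exact (V.smul_mem_iff h1).mp hv
    · left
      have h3 : (2 * B.repr v 0) • B 0 ∈ V := by
        have h4 := V.add_mem hv hcv
        have h5 : v + (B.repr v 0 • B 0 - B.repr v 1 • B 1) = (2 * B.repr v 0) • B 0 := by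
          nth_rw 1 [hvB]
          rw [two_mul, add_smul]
          abel
        rwa [h5] at h4
      exact (V.smul_mem_iff (mul_ne_zero h2K h0)).mp h3
  have key : ∀ i j : Fin 2, i ≠ j → B i ∈ V → B j ∉ V → False := by
    intro i j hij hi hj
    have hstab : ∀ σ : Γℚ, ∀ x ∈ k ∙ b i, ρ.ρ σ x ∈ k ∙ b i := by
      intro σ x hx
      obtain ⟨a, rfl⟩ := Submodule.mem_span_singleton.mp hx
      rw [map_smul]
      refine (k ∙ b i).smul_mem a ?_
      have h1 := hV σ (B i) hi
      rw [hBi, hρ] at h1
      have h3 : ρ.ρ σ (b i) = b.repr (ρ.ρ σ (b i)) i • b i + b.repr (ρ.ρ σ (b i)) j • b j := by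
        conv_lhs => rw [← b.sum_repr (ρ.ρ σ (b i)), Fin.sum_univ_two]
        fin_cases i <;> fin_cases j <;> simp at hij ⊢
        rw [add_comm]
      have h4 : b.repr (ρ.ρ σ (b i)) j = 0 := by
        by_contra h5
        apply hj
        rw [h3, TensorProduct.tmul_add, TensorProduct.tmul_smul, TensorProduct.tmul_smul,
          ← hBi, ← hBi, ← algebraMap_smul K (b.repr (ρ.ρ σ (b i)) i),
          ← algebraMap_smul K (b.repr (ρ.ρ σ (b i)) j)] at h1
        have h6 := (V.add_mem_iff_right (V.smul_mem _ hi)).mp h1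
        refine (V.smul_mem_iff ?_).mp h6
        intro h7
        exact h5 ((algebraMap k K).injective (by rw [h7, map_zero]))
      rw [h3, h4, zero_smul, add_zero]
      exact (k ∙ b i).smul_mem _ (Submodule.mem_span_singleton_self _)
    rcases hirr (k ∙ b i) hstab with h1 | h1
    · rw [Submodule.span_singleton_eq_bot] at h1
      exact b.ne_zero i h1
    · have h3 : Module.finrank k (⊤ : Submodule k ρ.V) ≤ 1 := by
        rw [← h1]
        exact finrank_span_singleton (b.ne_zero i) |>.le
      rw [finrank_top, ρ.finrank_eq] at h3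
      omega
  rcases hone with h0 | h0
  · exact key 0 1 (by decide) h0 fun h1 => hnot ⟨h0, h1⟩
  · exact key 1 0 (by decide) h0 fun h1 => hnot ⟨h1, h0⟩

end abs

section swap

variable {K : Type} [Field K] (R : ResidualGaloisRep K)

theorem ρ_inv_apply (σ : Γℚ) (x : R.V) : R.ρ σ⁻¹ (R.ρ σ x) = x := by
  rw [← Module.End.mul_apply, ← map_mul, inv_mul_cancel, map_one, Module.End.one_apply]

theorem ρ_apply_inv (σ : Γℚ) (x : R.V) : R.ρ σ (R.ρ σ⁻¹ x) = x := by
  rw [← Module.End.mul_apply, ← map_mul, mul_inv_cancel, map_one, Module.End.one_apply]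

theorem ρ_injective (σ : Γℚ) : Function.Injective (R.ρ σ) :=
  Function.LeftInverse.injective (ρ_inv_apply R σ)

/-- If a subgroup `G` of index two has a stable line in an irreducible representation, there is a
basis `b` such that `G` is diagonal and the complement of `G` is antidiagonal. -/
theorem exists_swap (hirr : R.IsIrreducible) (G : Subgroup Γℚ) (hG : G.index = 2)
    (V : Submodule K R.V) (hV : ∀ σ ∈ G, ∀ x ∈ V, R.ρ σ x ∈ V) (hne : V ≠ ⊥) (hnt : V ≠ ⊤) :
    ∃ b : Module.Basis (Fin 2) K R.V,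
      (∀ g ∈ G, ∃ x y : K, R.ρ g (b 0) = x • b 0 ∧ R.ρ g (b 1) = y • b 1) ∧
      (∀ g, g ∉ G → ∃ x y : K, R.ρ g (b 0) = x • b 1 ∧ R.ρ g (b 1) = y • b 0) := by
  have hnorm : G.Normal := Subgroup.normal_of_index_eq_two hG
  -- `V` is a line
  have hfin : Module.finrank K V = 1 := by
    have h1 : Module.finrank K V ≤ 2 := R.finrank_eq ▸ Submodule.finrank_le V
    have h2 : Module.finrank K V ≠ 0 := by
      rw [Ne, Submodule.finrank_eq_zero]; exact hne
    have h3 : Module.finrank K V ≠ 2 := by
      intro h3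
      exact hnt (Submodule.eq_top_of_finrank_eq (by rw [h3, R.finrank_eq]))
    omega
  obtain ⟨⟨v, hv⟩, hv0, hspan⟩ := finrank_eq_one_iff'.mp hfin
  have hv0' : v ≠ 0 := fun h => hv0 (Subtype.ext h)
  have hVv : ∀ x ∈ V, ∃ a : K, x = a • v := by
    intro x hx
    obtain ⟨a, ha⟩ := hspan ⟨x, hx⟩
    exact ⟨a, (congrArg Subtype.val ha).symm⟩
  -- an element outside `G`
  obtain ⟨τ, hτ⟩ : ∃ τ, τ ∉ G := by
    by_contra hcon
    push Not at hcon
    rw [(Subgroup.eq_top_iff' G).mpr hcon, Subgroup.index_top] at hG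
    omega
  have hmul : ∀ {a b : Γℚ}, a * b ∈ G ↔ (a ∈ G ↔ b ∈ G) := fun {a b} =>
    Subgroup.mul_mem_iff_of_index_two hG
  have hw : R.ρ τ v ∉ V := by
    intro hcon
    refine (hirr V ?_).elim hne hnt
    intro σ x hx
    by_cases hσ : σ ∈ G
    · exact hV σ hσ x hx
    · have h1 : τ⁻¹ * σ ∈ G := by
        rw [hmul, inv_mem_iff]
        exact iff_of_false hτ hσ
      obtain ⟨a, ha⟩ := hVv _ (hV _ h1 x hx)
      have h2 : R.ρ σ x = R.ρ τ (R.ρ (τ⁻¹ * σ) x) := by
        rw [← Module.End.mul_apply, ← map_mul, mul_inv_cancel_left]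
      rw [h2, ha, map_smul]
      exact V.smul_mem _ hcon
  have hli : LinearIndependent K ![v, R.ρ τ v] := by
    rw [LinearIndependent.pair_iff]
    intro s t hst
    have ht : t = 0 := by
      by_contra ht
      apply hw
      refine (V.smul_mem_iff ht).mp ?_
      rw [← V.add_mem_iff_right (V.smul_mem s hv), hst]
      exact V.zero_mem
    refine ⟨?_, ht⟩
    rw [ht, zero_smul, add_zero] at hst
    exact (smul_eq_zero.mp hst).resolve_right hv0'
  let b := basisOfLinearIndependentOfCardEqFinrank hli (by rw [R.finrank_eq]; rfl)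
  have hb0 : b 0 = v := by
    rw [coe_basisOfLinearIndependentOfCardEqFinrank]; rfl
  have hb1 : b 1 = R.ρ τ v := by
    rw [coe_basisOfLinearIndependentOfCardEqFinrank]; rfl
  refine ⟨b, fun g hg => ?_, fun g hg => ?_⟩
  · rw [hb0, hb1]
    obtain ⟨x, hx⟩ := hVv _ (hV g hg v hv)
    have h1 : τ⁻¹ * g * τ ∈ G := by
      have := hnorm.conj_mem g hg τ⁻¹
      rwa [inv_inv] at this
    obtain ⟨y, hy⟩ := hVv _ (hV _ h1 v hv)
    refine ⟨x, y, hx, ?_⟩
    have h2 : R.ρ g (R.ρ τ v) = R.ρ τ (R.ρ (τ⁻¹ * g * τ) v) := by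
      rw [← Module.End.mul_apply, ← map_mul, ← Module.End.mul_apply, ← map_mul]
      congr 2
      group
    rw [h2, hy, map_smul]
  · rw [hb0, hb1]
    have h1 : τ⁻¹ * g ∈ G := by
      rw [hmul, inv_mem_iff]
      exact iff_of_false hτ hg
    have h2 : g * τ ∈ G := by
      rw [hmul]
      exact iff_of_false hg hτ
    obtain ⟨x, hx⟩ := hVv _ (hV _ h1 v hv)
    obtain ⟨y, hy⟩ := hVv _ (hV _ h2 v hv)
    refine ⟨x, y, ?_, ?_⟩
    · have h2 : R.ρ g v = R.ρ τ (R.ρ (τ⁻¹ * g) v) := by
        rw [← Module.End.mul_apply, ← map_mul, mul_inv_cancel_left]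
      rw [h2, hx, map_smul]
    · rw [← Module.End.mul_apply, ← map_mul, hy]

/-- the complement of `G` has trace zero -/
theorem trace_eq_zero_of_swap {V : Type} [AddCommGroup V] [Module K V]
    (b : Module.Basis (Fin 2) K V) (f : Module.End K V) {x y : K}
    (h0 : f (b 0) = x • b 1) (h1 : f (b 1) = y • b 0) : LinearMap.trace K V f = 0 := by
  rw [LinearMap.trace_eq_matrix_trace K b, Matrix.trace_fin_two, LinearMap.toMatrix_apply,
    LinearMap.toMatrix_apply, h0, h1, map_smul, map_smul, Module.Basis.repr_self,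
    Module.Basis.repr_self]
  simp

theorem trace_det_of_diag {V : Type} [AddCommGroup V] [Module K V]
    (b : Module.Basis (Fin 2) K V) (f : Module.End K V) {x y : K}
    (h0 : f (b 0) = x • b 0) (h1 : f (b 1) = y • b 1) :
    LinearMap.trace K V f = x + y ∧ LinearMap.det f = x * y := by
  have e : LinearMap.toMatrix b b f = !![x, 0; 0, y] := by
    ext i j
    rw [LinearMap.toMatrix_apply]
    fin_cases j
    · change b.repr (f (b 0)) i = _
      rw [h0, map_smul, Module.Basis.repr_self]
      fin_cases i <;> simp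
    · change b.repr (f (b 1)) i = _
      rw [h1, map_smul, Module.Basis.repr_self]
      fin_cases i <;> simp
  rw [LinearMap.trace_eq_matrix_trace K b, ← LinearMap.det_toMatrix b, e]
  simp [Matrix.trace_fin_two, Matrix.det_fin_two]

/-- a diagonal unipotent element is trivial -/
theorem eq_one_of_diag_unipotent {V : Type} [AddCommGroup V] [Module K V]
    (b : Module.Basis (Fin 2) K V) (f : Module.End K V) {x y : K}
    (h0 : f (b 0) = x • b 0) (h1 : f (b 1) = y • b 1)
    (ht : LinearMap.trace K V f = 2) (hd : LinearMap.det f = 1) : f = 1 := by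
  obtain ⟨e1, e2⟩ := trace_det_of_diag b f h0 h1
  rw [e1] at ht
  rw [e2] at hd
  have hx : x = 1 := by
    have h3 : (x - 1) ^ 2 = 0 := by linear_combination x * ht - hd
    have := pow_eq_zero_iff (two_ne_zero) |>.mp h3
    linear_combination this
  have hy : y = 1 := by linear_combination ht - hx
  refine b.ext fun i => ?_
  rw [Module.End.one_apply]
  fin_cases i
  · change f (b 0) = b 0
    rw [h0, hx, one_smul]
  · change f (b 1) = b 1
    rw [h1, hy, one_smul]

end swap

end Fermat.Agent.RT.HTW
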