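import Mathlib
import Fermat.Agent.RT.HTW.Linear
import Fermat.Agent.LOC.Minkowski
import Fermat.Agent.TWP.Place

/-!
# Taylor–Wiles condition: no line is stable under a subgroup of index two

`htw_core`: the abstract theorem, in terms of traces and determinants on inertia groups.
-/

set_option autoImplicit false

open Polynomial Pointwise
open ResidualGaloisRep
open Fermat.Agent.FrobExists

namespace Fermat.Agent.RT.HTW

local notation "Γℚ" => (AlgebraicClosure ℚ ≃ₐ[ℚ] AlgebraicClosure ℚ)

/-- roots of quadratic polynomials over `𝔽₃` with nonzero constant term have order dividing `8` -/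
theorem pow_eight_eq_one {K : Type*} [Field K] (χ : ZMod 3 →+* K) {x : K} {t d : ZMod 3}
    (hd : d ≠ 0) (hx : x ^ 2 - χ t * x + χ d = 0) : x ^ 8 = 1 := by
  have h3 : (3 : K) = 0 := by
    have : χ (3 : ZMod 3) = 0 := by
      rw [show (3 : ZMod 3) = 0 from rfl, map_zero]
    rwa [map_ofNat] at this
  have htt : ∀ t : ZMod 3, t = 0 ∨ t = 1 ∨ t = 2 := by decide
  rcases htt d with rfl | rfl | rfl
  · exact absurd rfl hd
  · rcases htt t with rfl | rfl | rfl
    · rw [map_zero, map_one] at hx
      have h2 : x ^ 2 = -1 := by linear_combination hx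
      have : x ^ 8 = (x ^ 2) ^ 4 := by ring
      rw [this, h2]; ring
    · rw [map_one, one_mul] at hx
      have h2 : (x + 1) ^ 2 = 0 := by linear_combination hx + x * h3
      have h4 : x = -1 := by
        have := pow_eq_zero_iff (two_ne_zero) |>.mp h2
        linear_combination this
      rw [h4]; ring
    · rw [map_ofNat, map_one] at hx
      have h2 : (x - 1) ^ 2 = 0 := by linear_combination hx
      have h4 : x = 1 := by
        have := pow_eq_zero_iff (two_ne_zero) |>.mp h2
        linear_combination this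
      rw [h4]; ring
  · rcases htt t with rfl | rfl | rfl
    · rw [map_zero, map_ofNat] at hx
      have h2 : x ^ 2 = 1 := by linear_combination hx - h3
      have : x ^ 8 = (x ^ 2) ^ 4 := by ring
      rw [this, h2]; ring
    · rw [map_one, one_mul, map_ofNat] at hx
      have h2 : x ^ 2 = x + 1 := by linear_combination hx - h3
      have h4 : x ^ 4 = -1 := by
        have : x ^ 4 = (x ^ 2) ^ 2 := by ring
        rw [this, h2]
        linear_combination h2 + (x + 1) * h3
      have : x ^ 8 = (x ^ 4) ^ 2 := by ring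
      rw [this, h4]; ring
    · rw [map_ofNat] at hx
      have h2 : x ^ 2 = -x + 1 := by linear_combination hx + (x - 1) * h3
      have h4 : x ^ 4 = -1 := by
        have : x ^ 4 = (x ^ 2) ^ 2 := by ring
        rw [this, h2]
        linear_combination h2 + (1 - x) * h3
      have : x ^ 8 = (x ^ 4) ^ 2 := by ring
      rw [this, h4]; ring

section core

variable {K : Type} [Field K] (R : ResidualGaloisRep K)

/-- the kernel of a residual representation, as a subgroup -/
def kerR : Subgroup Γℚ where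
  carrier := {σ | R.ρ σ = 1}
  mul_mem' := fun {a b} ha hb => by
    change R.ρ (a * b) = 1
    rw [map_mul, show R.ρ a = 1 from ha, show R.ρ b = 1 from hb, one_mul]
  one_mem' := map_one _
  inv_mem' := fun {a} ha => by
    change R.ρ a⁻¹ = 1
    have h : R.ρ a⁻¹ * R.ρ a = 1 := by rw [← map_mul, inv_mul_cancel, map_one]
    rwa [show R.ρ a = 1 from ha, mul_one] at h

theorem mem_kerR {σ : Γℚ} : σ ∈ kerR R ↔ R.ρ σ = 1 := Iff.rfl

instance : (kerR R).Normal := ⟨fun n hn g => by
  rw [mem_kerR] at hn ⊢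
  rw [map_mul, map_mul, hn, mul_one, ← map_mul, mul_inv_cancel, map_one]⟩

theorem isOpen_kerR : IsOpen (kerR R : Set Γℚ) := by
  obtain ⟨L, hL, h⟩ := R.factorsThroughFiniteLevel
  refine Subgroup.isOpen_mono (H₁ := L.fixingSubgroup) (fun σ hσ => h σ fun x hx => ?_)
    (IntermediateField.fixingSubgroup_isOpen L)
  exact (IntermediateField.mem_fixingSubgroup_iff L σ).mp hσ x hx

/-- **The Taylor–Wiles condition** from the traces and determinants on inertia. -/
theorem htw_core (p : ℕ) [hp : Fact p.Prime] (hp2 : p ≠ 2) (χ : ZMod p →+* K)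
    (hirr : R.IsIrreducible) (T D : Γℚ → ZMod p)
    (hT : ∀ σ, LinearMap.trace K R.V (R.ρ σ) = χ (T σ))
    (hD : ∀ σ, LinearMap.det (R.ρ σ) = χ (D σ))
    (hu : ∀ q : ℕ, q.Prime → q ≠ p → ∀ A : ValuationSubring (AlgebraicClosure ℚ),
      A.LiesOverPrime q → ∀ σ ∈ A.inertiaSubgroupIn ℚ, T σ = 2 ∧ D σ = 1)
    (hsurj : ∀ A : ValuationSubring (AlgebraicClosure ℚ), A.LiesOverPrime p →
      ∀ u : (ZMod p)ˣ, ∃ σ ∈ A.inertiaSubgroupIn ℚ, D σ = u)
    (hdich : ∀ A : ValuationSubring (AlgebraicClosure ℚ), A.LiesOverPrime p →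
      (∀ σ ∈ A.inertiaSubgroupIn ℚ, T σ = 1 + D σ) ∨
      (∀ G : Subgroup Γℚ, G.index = 2 → (∀ τ ∈ A.inertiaSubgroupIn ℚ, τ ∉ G → T τ = 0) →
        A.inertiaSubgroupIn ℚ ≤ G))
    (G : Subgroup Γℚ) (hG : G.index = 2) (V : Submodule K R.V)
    (hV : ∀ σ ∈ G, ∀ x ∈ V, R.ρ σ x ∈ V) : V = ⊥ ∨ V = ⊤ := by
  by_contra hcon
  rw [not_or] at hcon
  obtain ⟨b, hGb, hGb'⟩ := exists_swap R hirr G hG V hV hcon.1 hcon.2
  have hnorm : G.Normal := Subgroup.normal_of_index_eq_two hG
  have hχ : Function.Injective χ := χ.injective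
  have h2p : (2 : ZMod p) ≠ 0 := by
    intro h
    have : ((2 : ℕ) : ZMod p) = 0 := by exact_mod_cast h
    rw [ZMod.natCast_eq_zero_iff] at this
    exact hp2 ((Nat.prime_dvd_prime_iff_eq hp.out Nat.prime_two).mp this)
  have hDmul : ∀ σ τ, D (σ * τ) = D σ * D τ := by
    intro σ τ
    apply hχ
    rw [← hD, map_mul, map_mul, map_mul, hD, hD]
  have hT0 : ∀ τ, τ ∉ G → T τ = 0 := by
    intro τ hτ
    obtain ⟨x, y, h0, h1⟩ := hGb' τ hτ
    apply hχ
    rw [← hT, map_zero]
    exact trace_eq_zero_of_swap b _ h0 h1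
  have hmul : ∀ {a b : Γℚ}, a * b ∈ G ↔ (a ∈ G ↔ b ∈ G) := fun {a b} =>
    Subgroup.mul_mem_iff_of_index_two hG
  have huni : ∀ g ∈ G, T g = 2 → D g = 1 → R.ρ g = 1 := by
    intro g hg h1 h2
    obtain ⟨x, y, h3, h4⟩ := hGb g hg
    refine eq_one_of_diag_unipotent b _ h3 h4 ?_ ?_
    · rw [hT, h1, map_ofNat]
    · rw [hD, h2, map_one]
  -- `ker ≤ G`
  have hker : kerR R ≤ G := by
    intro σ hσ
    by_contra hσG
    have h1 := hT σ
    rw [hT0 σ hσG, (mem_kerR R).mp hσ, map_zero, LinearMap.trace_one, R.finrank_eq] at h1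
    apply h2p
    apply hχ
    rw [map_zero, map_ofNat]
    exact_mod_cast h1
  have hGopen : IsOpen (G : Set Γℚ) := Subgroup.isOpen_mono hker (isOpen_kerR R)
  -- inertia away from `p`
  have hq : ∀ q : ℕ, q.Prime → q ≠ p → ∀ A : ValuationSubring (AlgebraicClosure ℚ),
      A.LiesOverPrime q → A.inertiaSubgroupIn ℚ ≤ kerR R := by
    intro q hq hqp A hA σ hσ
    obtain ⟨h1, h2⟩ := hu q hq hqp A hA σ hσ
    have hσG : σ ∈ G := by
      by_contra hσG
      rw [hT0 σ hσG] at h1
      exact h2p h1.symm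
    exact huni σ hσG h1 h2
  -- some inertia group at `p` is not contained in `G`
  obtain ⟨A, hA, hAG⟩ : ∃ A : ValuationSubring (AlgebraicClosure ℚ), A.LiesOverPrime p ∧
      ¬ A.inertiaSubgroupIn ℚ ≤ G := by
    by_contra hcon2
    push Not at hcon2
    have h1 : G = ⊤ := by
      refine LOC.Minkowski.eq_top_of_inertia_le G hGopen fun q hqq A hA => ?_
      by_cases hqp : q = p
      · subst hqp
        exact hcon2 A hA
      · exact (hq q hqq hqp A hA).trans hker
    rw [h1, Subgroup.index_top] at hG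
    omega
  rcases hdich A hA with hcase | hcase
  swap
  · exact hAG (hcase G hG fun τ _ hτ => hT0 τ hτ)
  obtain ⟨τ, hτ, hτG⟩ := SetLike.not_le_iff_exists.mp hAG
  have hDτ : ∀ σ ∈ A.inertiaSubgroupIn ℚ, σ ∉ G → D σ = -1 := by
    intro σ hσ hσG
    have h1 := hcase σ hσ
    rw [hT0 σ hσG] at h1
    linear_combination -h1
  have hDg : ∀ σ ∈ A.inertiaSubgroupIn ℚ, σ ∈ G → D σ = 1 := by
    intro σ hσ hσG
    have h1 : τ * σ ∉ G := by
      rw [hmul, not_iff]
      exact iff_of_true hτG hσG
    have h2 := hDτ _ (mul_mem hτ hσ) h1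
    rw [hDmul, hDτ τ hτ hτG] at h2
    linear_combination -h2
  have hker1 : ∀ σ ∈ A.inertiaSubgroupIn ℚ, σ ∈ G → R.ρ σ = 1 := by
    intro σ hσ hσG
    refine huni σ hσG ?_ (hDg σ hσ hσG)
    rw [hcase σ hσ, hDg σ hσ hσG]
    norm_num
  -- `p = 3`
  have hp3 : p = 3 := by
    obtain ⟨σ, hσ, hσ2⟩ := hsurj A hA (Units.mk0 2 h2p)
    rw [Units.val_mk0] at hσ2
    by_cases hσG : σ ∈ G
    · exfalso
      rw [hDg σ hσ hσG] at hσ2
      have : (1 : ZMod p) = 0 := by linear_combination -hσ2
      exact one_ne_zero this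
    · rw [hDτ σ hσ hσG] at hσ2
      have h3 : ((3 : ℕ) : ZMod p) = 0 := by
        push_cast
        linear_combination -hσ2
      rw [ZMod.natCast_eq_zero_iff] at h3
      exact (Nat.prime_dvd_prime_iff_eq hp.out Nat.prime_three).mp h3
  subst hp3
  -- the image is a `2`-group
  let Q := Γℚ ⧸ kerR R
  have hQfin : Finite Q := Subgroup.quotient_finite_of_isOpen (kerR R) (isOpen_kerR R)
  have hmk : ∀ σ : Γℚ, (QuotientGroup.mk' (kerR R) σ = 1) ↔ R.ρ σ = 1 := fun σ => by
    rw [QuotientGroup.mk'_apply, QuotientGroup.eq_one_iff]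
    rfl
  have hD0 : ∀ σ, D σ ≠ 0 := by
    intro σ h
    have h1 : D (σ * σ⁻¹) = 1 := by
      apply hχ
      rw [← hD, mul_inv_cancel, map_one, map_one, map_one]
    rw [hDmul, h, zero_mul] at h1
    exact zero_ne_one h1
  have hpow8 : ∀ g ∈ G, R.ρ (g ^ 8) = 1 := by
    intro g hg
    obtain ⟨x, y, h3, h4⟩ := hGb g hg
    obtain ⟨e1, e2⟩ := trace_det_of_diag b _ h3 h4
    rw [hT] at e1
    rw [hD] at e2
    have hx : x ^ 8 = 1 := pow_eight_eq_one χ (hD0 g) (t := T g) (by rw [e1, e2]; ring)
    have hy : y ^ 8 = 1 := pow_eight_eq_one χ (hD0 g) (t := T g) (by rw [e1, e2]; ring)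
    have hpow : ∀ n : ℕ, R.ρ (g ^ n) (b 0) = x ^ n • b 0 ∧ R.ρ (g ^ n) (b 1) = y ^ n • b 1 := by
      intro n
      induction n with
      | zero => simp
      | succ n ih =>
        rw [pow_succ, map_mul, Module.End.mul_apply, Module.End.mul_apply, h3, h4, map_smul,
          map_smul, ih.1, ih.2, smul_smul, smul_smul, pow_succ', pow_succ']
        exact ⟨rfl, rfl⟩
    refine b.ext fun i => ?_
    rw [Module.End.one_apply]
    fin_cases i
    · change R.ρ (g ^ 8) (b 0) = b 0
      rw [(hpow 8).1, hx, one_smul]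
    · change R.ρ (g ^ 8) (b 1) = b 1
      rw [(hpow 8).2, hy, one_smul]
  have hPG : IsPGroup 2 Q := by
    intro q
    obtain ⟨σ, rfl⟩ := QuotientGroup.mk'_surjective (kerR R) q
    refine ⟨4, ?_⟩
    rw [← map_pow, hmk]
    have h1 : σ ^ 2 ∈ G := Subgroup.sq_mem_of_index_two hG σ
    have h2 := hpow8 _ h1
    rwa [← pow_mul] at h2
  have hnil : Group.IsNilpotent Q := hPG.isNilpotent
  let s : Q := QuotientGroup.mk' (kerR R) τ
  rcases eq_top_or_exists_le_coatom (Subgroup.zpowers s) with htop | ⟨M, hM, hsM⟩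
  · -- the image is cyclic, generated by an involution
    obtain ⟨x, y, h3, h4⟩ := hGb' τ hτG
    have hxy : x * y = 1 := by
      have h5 : R.ρ τ * R.ρ τ = 1 := by
        rw [← map_mul]
        refine hker1 _ (mul_mem hτ hτ) ?_
        rw [hmul]
      have h6 := congrArg (fun f => f (b 0)) h5
      simp only [Module.End.mul_apply, Module.End.one_apply] at h6
      rw [h3, map_smul, h4, smul_smul] at h6
      have h7 := congrArg (fun v => b.repr v 0) h6
      simpa using h7
    set v := b 0 + x • b 1 with hv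
    have hτv : R.ρ τ v = v := by
      rw [hv, map_add, map_smul, h3, h4, smul_smul, hxy, one_smul, add_comm]
    have hv0 : v ≠ 0 := by
      intro h
      have h7 := congrArg (fun v => b.repr v 0) h
      simp [hv] at h7
    have hfix : ∀ σ : Γℚ, R.ρ σ v = v := by
      intro σ
      have h5 : QuotientGroup.mk' (kerR R) σ ∈ Subgroup.zpowers s := by
        rw [htop]; exact Subgroup.mem_top _
      obtain ⟨n, hn⟩ := Subgroup.mem_zpowers_iff.mp h5
      have h6 : R.ρ (σ * (τ ^ n)⁻¹) = 1 := by
        rw [← hmk, map_mul, map_inv, map_zpow, ← hn, mul_inv_cancel]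
      let St : Subgroup Γℚ :=
        { carrier := {g | R.ρ g v = v}
          mul_mem' := fun {a b} ha hb => by
            change R.ρ (a * b) v = v
            rw [map_mul, Module.End.mul_apply, show R.ρ b v = v from hb, show R.ρ a v = v from ha]
          one_mem' := by
            change R.ρ 1 v = v
            rw [map_one, Module.End.one_apply]
          inv_mem' := fun {a} ha => by
            change R.ρ a⁻¹ v = v
            have := ρ_inv_apply R a v
            rwa [show R.ρ a v = v from ha] at this }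
      have h7 : τ ^ n ∈ St := St.zpow_mem hτv n
      have h8 : σ = (σ * (τ ^ n)⁻¹) * τ ^ n := by group
      rw [h8, map_mul, h6, one_mul]
      exact h7
    rcases hirr (K ∙ v) (fun σ x hx => by
      obtain ⟨a, rfl⟩ := Submodule.mem_span_singleton.mp hx
      rw [map_smul, hfix]
      exact hx) with h1 | h1
    · rw [Submodule.span_singleton_eq_bot] at h1
      exact hv0 h1
    · have h3 : Module.finrank K (⊤ : Submodule K R.V) ≤ 1 := by
        rw [← h1]
        exact (finrank_span_singleton hv0).le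
      rw [finrank_top, R.finrank_eq] at h3
      omega
  · -- a maximal subgroup of the image is normal
    have hMn : M.Normal := Subgroup.NormalizerCondition.normal_of_coatom M
      Group.normalizerCondition_of_isNilpotent hM
    have hsM' : s ∈ M := hsM (Subgroup.mem_zpowers s)
    let N : Subgroup Γℚ := M.comap (QuotientGroup.mk' (kerR R))
    have hkN : kerR R ≤ N := by
      intro σ hσ
      rw [Subgroup.mem_comap, (hmk σ).mpr hσ]
      exact M.one_mem
    have hNn : N.Normal := hMn.comap _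
    have hIA : A.inertiaSubgroupIn ℚ ≤ N := by
      intro σ hσ
      by_cases hσG : σ ∈ G
      · exact hkN (hker1 σ hσ hσG)
      · have h1 : σ * τ⁻¹ ∈ G := by
          rw [hmul, inv_mem_iff]
          exact iff_of_false hσG hτG
        have h2 : σ * τ⁻¹ ∈ N := hkN (hker1 _ (mul_mem hσ (inv_mem hτ)) h1)
        have h3 : τ ∈ N := hsM'
        have h4 := N.mul_mem h2 h3
        rwa [inv_mul_cancel_right] at h4
    have hNtop : N = ⊤ := by
      refine LOC.Minkowski.eq_top_of_inertia_le N (Subgroup.isOpen_mono hkN (isOpen_kerR R))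
        fun q hqq B hB => ?_
      by_cases hqp : q = 3
      · subst hqp
        obtain ⟨g, rfl⟩ := exists_smul_eq A B hqq hA hB
        intro σ hσ
        have h1 := TWP.Place.mem_inertia_conj g⁻¹ hσ
        rw [inv_smul_smul, inv_inv] at h1
        have h2 := hNn.conj_mem _ (hIA h1) g
        have h3 : g * (g⁻¹ * σ * g) * g⁻¹ = σ := by group
        rwa [h3] at h2
      · exact (hq q hqq hqp B hB).trans hkN
    apply hM.1
    rw [eq_top_iff]
    intro q _
    obtain ⟨σ, rfl⟩ := QuotientGroup.mk'_surjective (kerR R) q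
    have : σ ∈ N := by rw [hNtop]; exact Subgroup.mem_top _
    exact this

end core

end Fermat.Agent.RT.HTW
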