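import Mathlib

set_option autoImplicit false

open Polynomial

namespace Fermat.Agent.RT.HTW

section finite

/-- elements with `α ^ q = α` come from the field with `q` elements -/
theorem mem_range_of_pow_card {k F : Type*} [Field k] [Fintype k] [Field F] [Algebra k F] {α : F}
    (h : α ^ Fintype.card k = α) : ∃ a : k, algebraMap k F a = α := by
  classical
  by_contra hcon
  push Not at hcon
  set q := Fintype.card k with hq
  have hq1 : 1 < q := Fintype.one_lt_card
  have hP : (X ^ q - X : F[X]) ≠ 0 := FiniteField.X_pow_card_sub_X_ne_zero F hq1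
  let S : Finset F := insert α (Finset.univ.image (algebraMap k F))
  have hS : S ⊆ (X ^ q - X : F[X]).roots.toFinset := by
    intro x hx
    rw [Multiset.mem_toFinset, mem_roots hP, IsRoot.def, eval_sub, eval_pow, eval_X, sub_eq_zero]
    rcases Finset.mem_insert.mp hx with rfl | hx
    · exact h
    · obtain ⟨a, -, rfl⟩ := Finset.mem_image.mp hx
      rw [← map_pow, FiniteField.pow_card]
  have h1 : S.card = q + 1 := by
    rw [Finset.card_insert_of_notMem, Finset.card_image_of_injective _ (algebraMap k F).injective,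
      Finset.card_univ]
    intro h2
    obtain ⟨a, -, ha⟩ := Finset.mem_image.mp h2
    exact hcon a ha
  have h2 := Finset.card_le_card hS
  have h3 := Multiset.toFinset_card_le (X ^ q - X : F[X]).roots
  have h4 := card_roots' (X ^ q - X : F[X])
  rw [FiniteField.X_pow_card_sub_X_natDegree_eq F hq1] at h4
  omega

/-- Quadratic polynomials over `𝔽_p` split over finite fields containing `𝔽_{p²}`. -/
theorem exists_quadratic_split (p : ℕ) [hp : Fact p.Prime] {k : Type*} [Field k] [Finite k]
    (χ : ZMod p →+* k) {m : ℕ} (hk : Nat.card k = p ^ (2 * m)) (a b : ZMod p) :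
    ∃ α β : k, (X ^ 2 - C (χ a) * X + C (χ b) : k[X]) = (X - C α) * (X - C β) := by
  classical
  have := Fintype.ofFinite k
  let F := AlgebraicClosure k
  let φ : ZMod p →+* F := (algebraMap k F).comp χ
  have hchar : CharP F p := charP_of_injective_ringHom φ.injective p
  obtain ⟨α, hα⟩ : ∃ α : F, α ^ 2 - φ a * α + φ b = 0 := by
    have hdeg : (X ^ 2 - C (φ a) * X + C (φ b) : F[X]).degree ≠ 0 := by
      have : (X ^ 2 - C (φ a) * X + C (φ b) : F[X]).degree = 2 := by
        compute_degree!
      rw [this]; norm_num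
    obtain ⟨α, hα⟩ := IsAlgClosed.exists_root _ hdeg
    refine ⟨α, ?_⟩
    simpa using hα
  have hfa : ∀ c : ZMod p, φ c ^ p = φ c := fun c => by rw [← map_pow, ZMod.pow_card]
  have hα' : (α ^ p) ^ 2 - φ a * α ^ p + φ b = 0 := by
    have h1 : (α ^ 2 - φ a * α + φ b) ^ p = 0 := by rw [hα, zero_pow hp.out.ne_zero]
    rw [add_pow_char, sub_pow_char, mul_pow, hfa, hfa] at h1
    rw [← h1]; ring
  have hfac : (α ^ p - α) * (α ^ p + α - φ a) = 0 := by linear_combination hα' - hα
  have h2 : α ^ (p ^ 2) = α := by
    rw [pow_two, pow_mul]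
    rcases mul_eq_zero.mp hfac with h3 | h3
    · have h4 : α ^ p = α := by linear_combination h3
      rw [h4, h4]
    · have h4 : α ^ p = φ a - α := by linear_combination h3
      rw [h4, sub_pow_char, hfa, h4]; ring
  have h3 : ∀ m : ℕ, α ^ (p ^ (2 * m)) = α := by
    intro m
    induction m with
    | zero => simp
    | succ m ih =>
      rw [show 2 * (m + 1) = 2 * m + 2 by ring, pow_add, pow_mul, ih, h2]
  obtain ⟨α₀, hα₀⟩ := mem_range_of_pow_card (k := k) (α := α) (by
    rw [← Nat.card_eq_fintype_card, hk]; exact h3 m)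
  refine ⟨α₀, χ a - α₀, ?_⟩
  have h5 : α₀ ^ 2 - χ a * α₀ + χ b = 0 := by
    apply (algebraMap k F).injective
    rw [map_add, map_sub, map_mul, map_pow, hα₀, map_zero]
    exact hα
  have h6 : χ b = α₀ * (χ a - α₀) := by linear_combination h5
  rw [h6, C_mul, C_sub]
  ring

end finite

end Fermat.Agent.RT.HTW
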